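import Mathlib

set_option autoImplicit false

namespace Fermat.Agent.S05

/-- Abstract "Legendre coordinates" on an abelian group `G`: the nonzero elements of `G` are the
affine points of `(η/2)^2 = ξ (ξ - α) (ξ - β)`, with the chord-tangent group law. -/
structure LegCoord (G : Type*) [AddCommGroup G] (K : Type*) [Field K] (α β : K) where
  ξ : G → K
  η : G → K
  eqn : ∀ P, P ≠ 0 → η P ^ 2 = 4 * ξ P * (ξ P - α) * (ξ P - β)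
  ext : ∀ P Q, P ≠ 0 → Q ≠ 0 → ξ P = ξ Q → η P = η Q → P = Q
  ξ_neg : ∀ P, ξ (-P) = ξ P
  η_neg : ∀ P, η (-P) = - η P
  add_ne : ∀ P Q, P ≠ 0 → Q ≠ 0 → ξ P ≠ ξ Q →
    4 * ξ (P + Q) * (ξ P - ξ Q) ^ 2
      = (η P - η Q) ^ 2 + 4 * (α + β - ξ P - ξ Q) * (ξ P - ξ Q) ^ 2
  dbl : ∀ P, P ≠ 0 → η P ≠ 0 → ξ (P + P) * η P ^ 2 = (ξ P ^ 2 - α * β) ^ 2
  exists_pt : ∀ x y : K, y ^ 2 = 4 * x * (x - α) * (x - β) → ∃ P, P ≠ 0 ∧ ξ P = x ∧ η P = y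

namespace LegCoord

variable {G : Type*} [AddCommGroup G] {K : Type*} [Field K] {α β : K} (c : LegCoord G K α β)

include c in
lemma add_ne_zero_of_ξ_ne {P Q : G} (h : c.ξ P ≠ c.ξ Q) : P + Q ≠ 0 := by
  intro h0
  apply h
  have : P = -Q := eq_neg_of_add_eq_zero_left h0
  rw [this, c.ξ_neg]

include c in
lemma sub_ne_zero_of_ξ_ne {P Q : G} (h : c.ξ P ≠ c.ξ Q) : P - Q ≠ 0 := by
  intro h0
  apply h
  rw [sub_eq_zero.mp h0]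

/-- product formula -/
lemma mul_formula (h2 : (2 : K) ≠ 0) {P Q : G} (hP : P ≠ 0) (hQ : Q ≠ 0) (h : c.ξ P ≠ c.ξ Q) :
    c.ξ (P + Q) * c.ξ (P - Q) * (c.ξ P - c.ξ Q) ^ 2 = (c.ξ P * c.ξ Q - α * β) ^ 2 := by
  have hnQ : -Q ≠ 0 := neg_ne_zero.mpr hQ
  have e1 := c.add_ne P Q hP hQ h
  have e2 := c.add_ne P (-Q) hP hnQ (by rwa [c.ξ_neg])
  rw [c.ξ_neg, c.η_neg, ← sub_eq_add_neg] at e2
  have eP := c.eqn P hP
  have eQ := c.eqn Q hQ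
  have hD : (c.ξ P - c.ξ Q) ≠ 0 := sub_ne_zero.mpr h
  have h16 : (16 : K) ≠ 0 := by
    have : (16 : K) = 2 ^ 4 := by norm_num
    rw [this]; exact pow_ne_zero _ h2
  have hD2 : (16 : K) * (c.ξ P - c.ξ Q) ^ 2 ≠ 0 := mul_ne_zero h16 (pow_ne_zero _ hD)
  apply mul_right_cancel₀ hD2
  generalize c.ξ (P + Q) = s at *
  generalize c.ξ (P - Q) = d at *
  generalize c.ξ P = x₁ at *
  generalize c.ξ Q = x₂ at *
  generalize c.η P = y₁ at *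
  generalize c.η Q = y₂ at *
  have key : (4 * s * (x₁ - x₂) ^ 2) * (4 * d * (x₁ - x₂) ^ 2)
      = ((y₁ - y₂) ^ 2 + 4 * (α + β - x₁ - x₂) * (x₁ - x₂) ^ 2) *
        ((y₁ - -y₂) ^ 2 + 4 * (α + β - x₁ - x₂) * (x₁ - x₂) ^ 2) := by
    rw [e1, e2]
  linear_combination key
    + ((y₁ ^ 2 - y₂ ^ 2 + 4 * x₁ * (x₁ - α) * (x₁ - β) - 4 * x₂ * (x₂ - α) * (x₂ - β))
        + 8 * (α + β - x₁ - x₂) * (x₁ - x₂) ^ 2) * eP
    + (-(y₁ ^ 2 - y₂ ^ 2 + 4 * x₁ * (x₁ - α) * (x₁ - β) - 4 * x₂ * (x₂ - α) * (x₂ - β))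
        + 8 * (α + β - x₁ - x₂) * (x₁ - x₂) ^ 2) * eQ

/-- sum formula -/
lemma add_formula (h2 : (2 : K) ≠ 0) {P Q : G} (hP : P ≠ 0) (hQ : Q ≠ 0) (h : c.ξ P ≠ c.ξ Q) :
    (c.ξ (P + Q) + c.ξ (P - Q)) * (c.ξ P - c.ξ Q) ^ 2
      = 2 * ((c.ξ P + c.ξ Q) * (c.ξ P * c.ξ Q + α * β) - 2 * (α + β) * (c.ξ P * c.ξ Q)) := by
  have hnQ : -Q ≠ 0 := neg_ne_zero.mpr hQ
  have e1 := c.add_ne P Q hP hQ h
  have e2 := c.add_ne P (-Q) hP hnQ (by rwa [c.ξ_neg])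
  rw [c.ξ_neg, c.η_neg, ← sub_eq_add_neg] at e2
  have eP := c.eqn P hP
  have eQ := c.eqn Q hQ
  have h4 : (4 : K) ≠ 0 := by
    have : (4 : K) = 2 ^ 2 := by norm_num
    rw [this]; exact pow_ne_zero _ h2
  apply mul_left_cancel₀ h4
  linear_combination e1 + e2 + 2 * eP + 2 * eQ

include c in
lemma eq_or_eq_neg_of_ξ_eq {P Q : G} (hP : P ≠ 0) (hQ : Q ≠ 0) (h : c.ξ P = c.ξ Q) :
    P = Q ∨ P = -Q := by
  have eP := c.eqn P hP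
  have eQ := c.eqn Q hQ
  rw [h, ← eQ] at eP
  rcases sq_eq_sq_iff_eq_or_eq_neg.mp eP with h' | h'
  · exact Or.inl (c.ext P Q hP hQ h h')
  · refine Or.inr (c.ext P (-Q) hP (neg_ne_zero.mpr hQ) ?_ ?_)
    · rw [c.ξ_neg, h]
    · rw [c.η_neg, h']

include c in
lemma add_self_eq_zero_of_η_eq_zero {P : G} (hP : P ≠ 0) (h : c.η P = 0) : P + P = 0 := by
  have : P = -P := c.ext P (-P) hP (neg_ne_zero.mpr hP) (c.ξ_neg P).symm (by rw [c.η_neg, h, neg_zero])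
  exact add_eq_zero_iff_eq_neg.mpr this

include c in
lemma η_ne_zero_of_add_self_ne_zero {P : G} (hP : P ≠ 0) (h : P + P ≠ 0) : c.η P ≠ 0 :=
  fun h0 => h (c.add_self_eq_zero_of_η_eq_zero hP h0)

include c in
lemma ξ_ne_zero_of_η_ne_zero {P : G} (hP : P ≠ 0) (h : c.η P ≠ 0) : c.ξ P ≠ 0 := by
  intro h0
  apply h
  have := c.eqn P hP
  rw [h0] at this
  simpa using this

end LegCoord

end Fermat.Agent.S05
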