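import Fermat.Agent.S05.Coord

set_option autoImplicit false

namespace Fermat.Agent.S05

open WeierstrassCurve WeierstrassCurve.Affine

variable {K : Type*} [Field K] [DecidableEq K]

/-- the shifted `x`-coordinate -/
def xiPt (W : Affine K) (e₁ : K) : W.Point → K
  | .zero => 0
  | .some x _ _ => x - e₁

/-- the function `2y + a₁x + a₃` -/
def etaPt (W : Affine K) : W.Point → K
  | .zero => 0
  | .some x y _ => 2 * y + W.a₁ * x + W.a₃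

section

variable (W : Affine K) (e₁ α β : K)

omit [DecidableEq K] in
lemma eta_sq {x y : K} (hb2 : W.b₂ = -4 * (3 * e₁ + α + β))
    (hb4 : W.b₄ = 2 * (3 * e₁ ^ 2 + 2 * e₁ * (α + β) + α * β))
    (hb6 : W.b₆ = -4 * (e₁ * (e₁ + α) * (e₁ + β))) (h : W.Equation x y) :
    (2 * y + W.a₁ * x + W.a₃) ^ 2 = 4 * (x - e₁) * (x - e₁ - α) * (x - e₁ - β) := by
  simp only [WeierstrassCurve.b₂, WeierstrassCurve.b₄, WeierstrassCurve.b₆] at hb2 hb4 hb6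
  have E := (W.equation_iff x y).mp h
  linear_combination 4 * E + x ^ 2 * hb2 + 2 * x * hb4 + hb6

omit [DecidableEq K] in
lemma four_Δ (hb2 : W.b₂ = -4 * (3 * e₁ + α + β))
    (hb4 : W.b₄ = 2 * (3 * e₁ ^ 2 + 2 * e₁ * (α + β) + α * β))
    (hb6 : W.b₆ = -4 * (e₁ * (e₁ + α) * (e₁ + β))) :
    4 * W.Δ = 64 * α ^ 2 * β ^ 2 * (α - β) ^ 2 := by
  have hrel := W.b_relation
  rw [WeierstrassCurve.Δ]
  rw [hb2, hb4, hb6] at hrel ⊢
  linear_combination (-(-4 * (3 * e₁ + α + β)) ^ 2) * hrel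

omit [DecidableEq K] in
lemma Δ_ne_zero (h2 : (2 : K) ≠ 0) (hb2 : W.b₂ = -4 * (3 * e₁ + α + β))
    (hb4 : W.b₄ = 2 * (3 * e₁ ^ 2 + 2 * e₁ * (α + β) + α * β))
    (hb6 : W.b₆ = -4 * (e₁ * (e₁ + α) * (e₁ + β))) (hα : α ≠ 0) (hβ : β ≠ 0) (hαβ : α ≠ β) :
    W.Δ ≠ 0 := by
  intro h
  have := four_Δ W e₁ α β hb2 hb4 hb6
  rw [h, mul_zero] at this
  have h64 : (64 : K) ≠ 0 := by
    have : (64 : K) = 2 ^ 6 := by norm_num
    rw [this]; exact pow_ne_zero _ h2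
  have hne : 64 * α ^ 2 * β ^ 2 * (α - β) ^ 2 ≠ 0 :=
    mul_ne_zero (mul_ne_zero (mul_ne_zero h64 (pow_ne_zero _ hα)) (pow_ne_zero _ hβ))
      (pow_ne_zero _ (sub_ne_zero.mpr hαβ))
  exact hne this.symm

lemma add_formula_pt (hb2 : W.b₂ = -4 * (3 * e₁ + α + β)) {x₁ y₁ x₂ y₂ : K}
    (hx : x₁ ≠ x₂) :
    4 * (W.addX x₁ x₂ (W.slope x₁ x₂ y₁ y₂) - e₁) * ((x₁ - e₁) - (x₂ - e₁)) ^ 2
      = ((2 * y₁ + W.a₁ * x₁ + W.a₃) - (2 * y₂ + W.a₁ * x₂ + W.a₃)) ^ 2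
        + 4 * (α + β - (x₁ - e₁) - (x₂ - e₁)) * ((x₁ - e₁) - (x₂ - e₁)) ^ 2 := by
  simp only [WeierstrassCurve.b₂] at hb2
  rw [slope_of_X_ne hx, addX]
  have hD : x₁ - x₂ ≠ 0 := sub_ne_zero.mpr hx
  obtain ⟨ℓ, hℓ⟩ : ∃ ℓ, ℓ = (y₁ - y₂) / (x₁ - x₂) := ⟨_, rfl⟩
  rw [← hℓ]
  have hy : y₁ = y₂ + ℓ * (x₁ - x₂) := by
    rw [hℓ]; field_simp; ring
  rw [hy]
  linear_combination (-(x₁ - x₂) ^ 2) * hb2

lemma dbl_formula_pt (h2 : (2 : K) ≠ 0) (hb2 : W.b₂ = -4 * (3 * e₁ + α + β))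
    (hb4 : W.b₄ = 2 * (3 * e₁ ^ 2 + 2 * e₁ * (α + β) + α * β))
    (hb6 : W.b₆ = -4 * (e₁ * (e₁ + α) * (e₁ + β))) {x y : K} (h : W.Equation x y)
    (hy : y ≠ W.negY x y) :
    (W.addX x x (W.slope x x y y) - e₁) * (2 * y + W.a₁ * x + W.a₃) ^ 2
      = ((x - e₁) ^ 2 - α * β) ^ 2 := by
  have hη := eta_sq W e₁ α β hb2 hb4 hb6 h
  simp only [WeierstrassCurve.b₂, WeierstrassCurve.b₄] at hb2 hb4
  rw [slope_of_Y_ne rfl hy, addX]
  have hden : y - W.negY x y = 2 * y + W.a₁ * x + W.a₃ := by rw [negY]; ring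
  have hden0 : 2 * y + W.a₁ * x + W.a₃ ≠ 0 := by
    rw [← hden]; exact sub_ne_zero.mpr hy
  rw [hden]
  obtain ⟨ℓ, hℓ⟩ : ∃ ℓ, ℓ = (3 * x ^ 2 + 2 * W.a₂ * x + W.a₄ - W.a₁ * y)
      / (2 * y + W.a₁ * x + W.a₃) := ⟨_, rfl⟩
  rw [← hℓ]
  have hn : ℓ * (2 * y + W.a₁ * x + W.a₃) = 3 * x ^ 2 + 2 * W.a₂ * x + W.a₄ - W.a₁ * y := by
    rw [hℓ]; exact div_mul_cancel₀ _ hden0
  obtain ⟨η, hηdef⟩ : ∃ η, η = 2 * y + W.a₁ * x + W.a₃ := ⟨_, rfl⟩
  rw [← hηdef] at hn hη ⊢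
  have h1 : 2 * (ℓ * η) + W.a₁ * η
      = 6 * x ^ 2 + (-4 * (3 * e₁ + α + β)) * x
        + 2 * (3 * e₁ ^ 2 + 2 * e₁ * (α + β) + α * β) := by
    rw [hn, hηdef]
    linear_combination x * hb2 + hb4
  have h16 : (16 : K) ≠ 0 := by
    have : (16 : K) = 2 ^ 4 := by norm_num
    rw [this]; exact pow_ne_zero _ h2
  apply mul_left_cancel₀ h16
  linear_combination (4 * (2 * (ℓ * η) + W.a₁ * η + (6 * x ^ 2 + (-4 * (3 * e₁ + α + β)) * x
        + 2 * (3 * e₁ ^ 2 + 2 * e₁ * (α + β) + α * β)))) * h1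
    - 4 * η ^ 2 * hb2 + (-4 * (-4 * (3 * e₁ + α + β)) - 16 * (2 * x + e₁)) * hη

/-- Legendre coordinates on the group of points of a Weierstrass curve whose 2-division
polynomial is `4 (x - e₁) (x - e₁ - α) (x - e₁ - β)`. -/
noncomputable def legCoordOfCurve (h2 : (2 : K) ≠ 0) (hb2 : W.b₂ = -4 * (3 * e₁ + α + β))
    (hb4 : W.b₄ = 2 * (3 * e₁ ^ 2 + 2 * e₁ * (α + β) + α * β))
    (hb6 : W.b₆ = -4 * (e₁ * (e₁ + α) * (e₁ + β))) (hα : α ≠ 0) (hβ : β ≠ 0) (hαβ : α ≠ β) :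
    LegCoord W.Point K α β where
  ξ := xiPt W e₁
  η := etaPt W
  eqn := by
    rintro (_ | ⟨x, y, h⟩) hP
    · exact absurd rfl hP
    · simp only [xiPt, etaPt]
      exact eta_sq W e₁ α β hb2 hb4 hb6 h.left
  ext := by
    rintro (_ | ⟨x₁, y₁, h₁⟩) (_ | ⟨x₂, y₂, h₂⟩) hP hQ hξ hη
    · rfl
    · exact absurd rfl hP
    · exact absurd rfl hQ
    · simp only [xiPt, etaPt] at hξ hη
      have hx : x₁ = x₂ := by linear_combination hξ
      subst hx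
      have hy : y₁ = y₂ := by
        apply mul_left_cancel₀ h2
        linear_combination hη
      subst hy
      rfl
  ξ_neg := by
    rintro (_ | ⟨x, y, h⟩)
    · rfl
    · rfl
  η_neg := by
    rintro (_ | ⟨x, y, h⟩)
    · simp [etaPt, Point.neg_def, Point.neg]
    · rw [Point.neg_some]
      simp only [etaPt, negY]
      ring
  add_ne := by
    rintro (_ | ⟨x₁, y₁, h₁⟩) (_ | ⟨x₂, y₂, h₂⟩) hP hQ hξ
    · exact absurd rfl hP
    · exact absurd rfl hP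
    · exact absurd rfl hQ
    · simp only [xiPt] at hξ
      have hx : x₁ ≠ x₂ := fun h => hξ (by rw [h])
      rw [Point.add_of_X_ne hx]
      simp only [xiPt, etaPt]
      exact add_formula_pt W e₁ α β hb2 hx
  dbl := by
    rintro (_ | ⟨x, y, h⟩) hP hη
    · exact absurd rfl hP
    · simp only [etaPt] at hη
      have hy : y ≠ W.negY x y := by
        intro hy
        apply hη
        rw [negY] at hy
        linear_combination hy
      rw [Point.add_self_of_Y_ne hy]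
      simp only [xiPt, etaPt]
      exact dbl_formula_pt W e₁ α β h2 hb2 hb4 hb6 h.left hy
  exists_pt := by
    intro x' y' h
    have hΔ := Δ_ne_zero W e₁ α β h2 hb2 hb4 hb6 hα hβ hαβ
    have hE : W.Equation (x' + e₁) ((y' - W.a₁ * (x' + e₁) - W.a₃) / 2) := by
      rw [W.equation_iff]
      simp only [WeierstrassCurve.b₂, WeierstrassCurve.b₄, WeierstrassCurve.b₆] at hb2 hb4 hb6
      have h4 : (4 : K) ≠ 0 := by
        have : (4 : K) = 2 * 2 := by norm_num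
        rw [this]; exact mul_ne_zero h2 h2
      apply mul_left_cancel₀ h4
      field_simp
      linear_combination h - (x' + e₁) ^ 2 * hb2 - 2 * (x' + e₁) * hb4 - hb6
    refine ⟨.some _ _ ((W.equation_iff_nonsingular_of_Δ_ne_zero hΔ).mp hE), Point.some_ne_zero _,
      ?_, ?_⟩
    · simp only [xiPt]; ring
    · simp only [etaPt]; field_simp; ring

end

end Fermat.Agent.S05
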