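import Mathlib

set_option autoImplicit false

namespace Fermat.Agent.S05

section tropical

variable {G : Type*} [AddCommGroup G] [LinearOrder G] [IsOrderedAddMonoid G]

lemma natCast_mul_ne_zero {p : ℕ} [Fact p.Prime] {k₀ : ZMod p} (hk₀ : k₀ ≠ 0) {i : ℕ}
    (hi0 : 0 < i) (hip : i < p) : (i : ZMod p) * k₀ ≠ 0 := by
  apply mul_ne_zero _ hk₀
  rw [Ne, ZMod.natCast_eq_zero_iff]
  exact Nat.not_dvd_of_pos_of_lt hi0 hip

/-- The combinatorial ("tropical") lemma: a function on `ZMod p` behaving like the distance to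
`2ν ℤ` of a homomorphism to `G / 2ν ℤ` takes values in `(2ν/p) ℤ`. -/
theorem tropical {p : ℕ} [Fact p.Prime] (hp5 : 5 ≤ p) (f : ZMod p → G) (ν : G)
    (R1 : ∀ m, m ≠ 0 → 0 < f m ∧ f m < ν)
    (R2 : ∀ m, f (-m) = f m)
    (R3 : ∀ m k, m ≠ 0 → k ≠ 0 → m + k ≠ 0 → m - k ≠ 0 → f m ≠ f k)
    (R4 : ∀ m k, m ≠ 0 → k ≠ 0 → m + k ≠ 0 → m - k ≠ 0 → f k < f m →
      f (m + k) + f k = f m ∨ f (m - k) + f k = f m)
    (R5 : ∀ m k, m ≠ 0 → k ≠ 0 → m + k ≠ 0 → m - k ≠ 0 → f k < f m →
      (f m + f k < ν ∧ f (m + k) + f (m - k) = 2 • f m) ∨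
      (ν < f m + f k ∧ f (m + k) + f (m - k) + 2 • f k = 2 • ν))
    (R6 : ∀ m, m ≠ 0 → (2 • f m < ν ∧ f (m + m) = 2 • f m) ∨
      (ν < 2 • f m ∧ f (m + m) + 2 • f m = 2 • ν)) :
    ∀ m, m ≠ 0 → ∃ j : ℕ, p • f m = (2 * j) • ν := by
  classical
  have hp : p.Prime := Fact.out
  -- the minimum
  obtain ⟨k₀, hk₀mem, hk₀min⟩ := Finset.exists_min_image
    (Finset.univ.filter (fun m : ZMod p => m ≠ 0)) f ⟨1, by simp⟩
  have hk₀ : k₀ ≠ 0 := by simpa using hk₀mem
  have hmin : ∀ m, m ≠ 0 → f k₀ ≤ f m := fun m hm => hk₀min m (by simpa using hm)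
  set ε := f k₀ with hε
  have hε0 : 0 < ε := (R1 k₀ hk₀).1
  -- Claim 1
  have claim1 : ∀ m, m ≠ 0 → ∃ j : ℕ, 0 < j ∧ f m = j • ε := by
    by_contra hcon
    push Not at hcon
    obtain ⟨m₁, hm₁, hbad₁⟩ := hcon
    obtain ⟨m, hmmem, hmmin⟩ := Finset.exists_min_image
      (Finset.univ.filter (fun m : ZMod p => m ≠ 0 ∧ ∀ j : ℕ, 0 < j → f m ≠ j • ε)) f
      ⟨m₁, by simp only [Finset.mem_filter, Finset.mem_univ, true_and]; exact ⟨hm₁, hbad₁⟩⟩
    simp only [Finset.mem_filter, Finset.mem_univ, true_and] at hmmem hmmin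
    obtain ⟨hm, hbad⟩ := hmmem
    have hne : f m ≠ ε := by
      have := hbad 1 one_pos
      rwa [one_nsmul] at this
    have hlt : ε < f m := lt_of_le_of_ne (hmin m hm) (Ne.symm hne)
    have h1 : m + k₀ ≠ 0 := by
      intro h
      apply hne
      rw [eq_neg_of_add_eq_zero_left h, R2]
    have h2 : m - k₀ ≠ 0 := by
      intro h
      apply hne
      rw [sub_eq_zero.mp h]
    have key : ∀ m', m' ≠ 0 → f m' + ε = f m → False := by
      intro m' hm' h
      have hlt' : f m' < f m := by rw [← h]; exact lt_add_of_pos_right _ hε0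
      by_cases hb : ∀ j : ℕ, 0 < j → f m' ≠ j • ε
      · exact absurd (hmmin m' ⟨hm', hb⟩) (not_le.mpr hlt')
      · push Not at hb
        obtain ⟨j, hj, hj'⟩ := hb
        apply hbad (j + 1) (Nat.succ_pos j)
        rw [← h, hj', succ_nsmul]
    rcases R4 m k₀ hm hk₀ h1 h2 hlt with h | h
    · exact key _ h1 h
    · exact key _ h2 h
  obtain ⟨L, hL⟩ := hp.odd_of_ne_two (by omega)
  have hL2 : 2 ≤ L := by omega
  -- Claim 2
  have claim2 : ∀ i : ℕ, 0 < i → i ≤ L → f ((i : ZMod p) * k₀) = i • ε := by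
    intro i
    induction i using Nat.strong_induction_on with
    | _ i ih =>
      intro hi0 hiL
      rcases Nat.lt_or_ge i 2 with hi2 | hi2
      · have : i = 1 := by omega
        subst this
        simp [hε]
      rcases Nat.lt_or_ge i 3 with hi3 | hi3
      · have : i = 2 := by omega
        subst this
        have e2 : ((2 : ℕ) : ZMod p) * k₀ = k₀ + k₀ := by push_cast; ring
        rw [e2]
        rcases R6 k₀ hk₀ with ⟨-, h⟩ | ⟨h1, h2⟩
        · exact h
        · exfalso
          have hkk : k₀ + k₀ ≠ 0 := by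
            rw [← e2]; exact natCast_mul_ne_zero hk₀ (by norm_num) (by omega)
          obtain ⟨j, hj0, hj⟩ := claim1 _ hkk
          rw [hj] at h2
          have h3 : (j + 2) • ε < 4 • ε := by
            have e : (j + 2) • ε = 2 • ν := by rw [add_nsmul]; exact h2
            have e' : (4 : ℕ) • ε = 2 • (2 • ε) := by rw [← mul_nsmul]
            rw [e, e']
            exact nsmul_lt_nsmul_right (by norm_num) h1
          have h4 : j + 2 < 4 := (nsmul_lt_nsmul_iff_left hε0).mp h3
          have hj1 : j = 1 := by omega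
          subst hj1
          rw [one_nsmul] at hj
          refine R3 (k₀ + k₀) k₀ hkk hk₀ ?_ ?_ hj
          · have : k₀ + k₀ + k₀ = ((3 : ℕ) : ZMod p) * k₀ := by push_cast; ring
            rw [this]; exact natCast_mul_ne_zero hk₀ (by norm_num) (by omega)
          · simpa using hk₀
      -- general step: i = i' + 1 with i' ≥ 2
      obtain ⟨i', rfl⟩ : ∃ i', i = i' + 1 := ⟨i - 1, by omega⟩
      have hi'2 : 2 ≤ i' := by omega
      have g1 := ih i' (by omega) (by omega) (by omega)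
      have g0 := ih (i' - 1) (by omega) (by omega) (by omega)
      have hm : (i' : ZMod p) * k₀ ≠ 0 := natCast_mul_ne_zero hk₀ (by omega) (by omega)
      have ea : (i' : ZMod p) * k₀ + k₀ = ((i' + 1 : ℕ) : ZMod p) * k₀ := by push_cast; ring
      have es : (i' : ZMod p) * k₀ - k₀ = ((i' - 1 : ℕ) : ZMod p) * k₀ := by
        rw [Nat.cast_sub (by omega)]; push_cast; ring
      have hma : (i' : ZMod p) * k₀ + k₀ ≠ 0 := by
        rw [ea]; exact natCast_mul_ne_zero hk₀ (by omega) (by omega)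
      have hms : (i' : ZMod p) * k₀ - k₀ ≠ 0 := by
        rw [es]; exact natCast_mul_ne_zero hk₀ (by omega) (by omega)
      have hlt : f k₀ < f ((i' : ZMod p) * k₀) := by
        rw [g1, ← hε]
        calc ε = 1 • ε := (one_nsmul _).symm
          _ < i' • ε := (nsmul_lt_nsmul_iff_left hε0).mpr (by omega)
      obtain ⟨i'', rfl⟩ : ∃ i'', i' = i'' + 1 := ⟨i' - 1, by omega⟩
      simp only [Nat.add_sub_cancel] at g0 es
      rcases R5 _ k₀ hm hk₀ hma hms hlt with ⟨-, h⟩ | ⟨h1, h2⟩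
      · rw [ea, es, g0, g1] at h
        linear_combination (norm := module) h
      · exfalso
        rw [ea, es, g0, ← hε] at h2
        rw [g1, ← hε] at h1
        rw [ea] at hma
        obtain ⟨j, hj0, hj⟩ := claim1 _ hma
        rw [hj] at h2
        have h3 : (j + (i'' + 1 + 1)) • ε < (2 * (i'' + 1 + 1)) • ε := by
          have e : (j + (i'' + 1 + 1)) • ε = 2 • ν := by
            linear_combination (norm := module) h2
          have e' : (2 * (i'' + 1 + 1)) • ε = 2 • ((i'' + 1) • ε + ε) := by module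
          rw [e, e']
          exact nsmul_lt_nsmul_right (by norm_num) h1
        have h4 : j + (i'' + 1 + 1) < 2 * (i'' + 1 + 1) := (nsmul_lt_nsmul_iff_left hε0).mp h3
        have gj := ih j (by omega) hj0 (by omega)
        have hjk : (j : ZMod p) * k₀ ≠ 0 := natCast_mul_ne_zero hk₀ hj0 (by omega)
        refine R3 _ _ hma hjk ?_ ?_ (hj.trans gj.symm)
        · have : ((i'' + 1 + 1 : ℕ) : ZMod p) * k₀ + (j : ZMod p) * k₀
              = ((i'' + 1 + 1 + j : ℕ) : ZMod p) * k₀ := by push_cast; ring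
          rw [this]; exact natCast_mul_ne_zero hk₀ (by omega) (by omega)
        · have : ((i'' + 1 + 1 : ℕ) : ZMod p) * k₀ - (j : ZMod p) * k₀
              = ((i'' + 1 + 1 - j : ℕ) : ZMod p) * k₀ := by
            rw [Nat.cast_sub (by omega)]; push_cast; ring
          rw [this]; exact natCast_mul_ne_zero hk₀ (by omega) (by omega)
  -- the final relation
  have final : p • ε = 2 • ν := by
    obtain ⟨L', rfl⟩ : ∃ L', L = L' + 1 := ⟨L - 1, by omega⟩
    have g1 := claim2 (L' + 1) (by omega) le_rfl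
    have g0 := claim2 L' (by omega) (by omega)
    have hm : ((L' + 1 : ℕ) : ZMod p) * k₀ ≠ 0 := natCast_mul_ne_zero hk₀ (by omega) (by omega)
    have ea : ((L' + 1 : ℕ) : ZMod p) * k₀ + k₀ = - (((L' + 1 : ℕ) : ZMod p) * k₀) := by
      have : ((2 * (L' + 1) + 1 : ℕ) : ZMod p) = 0 := by
        rw [← hL]; exact ZMod.natCast_self p
      push_cast at this
      push_cast
      linear_combination k₀ * this
    have es : ((L' + 1 : ℕ) : ZMod p) * k₀ - k₀ = (L' : ZMod p) * k₀ := by push_cast; ring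
    have hma : ((L' + 1 : ℕ) : ZMod p) * k₀ + k₀ ≠ 0 := by
      rw [ea]; exact neg_ne_zero.mpr hm
    have hms : ((L' + 1 : ℕ) : ZMod p) * k₀ - k₀ ≠ 0 := by
      rw [es]; exact natCast_mul_ne_zero hk₀ (by omega) (by omega)
    have hlt : f k₀ < f (((L' + 1 : ℕ) : ZMod p) * k₀) := by
      rw [g1, ← hε]
      calc ε = 1 • ε := (one_nsmul _).symm
        _ < (L' + 1) • ε := (nsmul_lt_nsmul_iff_left hε0).mpr (by omega)
    rcases R5 _ k₀ hm hk₀ hma hms hlt with ⟨-, h⟩ | ⟨-, h⟩
    · exfalso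
      rw [ea, R2, es, g0, g1] at h
      have : ε = 0 := by linear_combination (norm := module) (-1 : ℤ) • h
      exact hε0.ne' this
    · rw [ea, R2, es, g0, g1, ← hε] at h
      rw [hL]
      linear_combination (norm := module) h
  intro m hm
  obtain ⟨j, -, hj⟩ := claim1 m hm
  refine ⟨j, ?_⟩
  rw [hj]
  linear_combination (norm := module) j • final

end tropical

end Fermat.Agent.S05
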