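import Fermat.Agent.S05.Trop

set_option autoImplicit false

namespace Fermat.Agent.S05

section

variable {Γ₀ : Type*} [LinearOrderedCommGroupWithZero Γ₀]

/-- additive, order-reversed copy of the group of units of `Γ₀`. -/
def eAdd (a : Γ₀ˣ) : Additive (Γ₀ˣ)ᵒᵈ := Additive.ofMul (OrderDual.toDual a)

lemma eAdd_lt {a b : Γ₀ˣ} : eAdd a < eAdd b ↔ (b : Γ₀) < a := Iff.rfl

lemma eAdd_add (a b : Γ₀ˣ) : eAdd a + eAdd b = eAdd (a * b) := rfl

lemma eAdd_nsmul (k : ℕ) (a : Γ₀ˣ) : k • eAdd a = eAdd (a ^ k) := rfl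

lemma eAdd_one : eAdd (1 : Γ₀ˣ) = 0 := rfl

lemma eAdd_inj {a b : Γ₀ˣ} : eAdd a = eAdd b ↔ (a : Γ₀) = b := by
  rw [← Units.ext_iff]
  exact Iff.rfl

/-- multiplicative form of the tropical lemma -/
theorem tropical_mul {p : ℕ} [Fact p.Prime] (hp5 : 5 ≤ p) (f : ZMod p → Γ₀) (n : Γ₀) (hn : n ≠ 0)
    (R1 : ∀ m, m ≠ 0 → n < f m ∧ f m < 1)
    (R2 : ∀ m, f (-m) = f m)
    (R3 : ∀ m k, m ≠ 0 → k ≠ 0 → m + k ≠ 0 → m - k ≠ 0 → f m ≠ f k)
    (R4 : ∀ m k, m ≠ 0 → k ≠ 0 → m + k ≠ 0 → m - k ≠ 0 → f m < f k →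
      f (m + k) * f k = f m ∨ f (m - k) * f k = f m)
    (R5 : ∀ m k, m ≠ 0 → k ≠ 0 → m + k ≠ 0 → m - k ≠ 0 → f m < f k →
      (n < f m * f k ∧ f (m + k) * f (m - k) = f m ^ 2) ∨
      (f m * f k < n ∧ f (m + k) * f (m - k) * f k ^ 2 = n ^ 2))
    (R6 : ∀ m, m ≠ 0 → (n < f m ^ 2 ∧ f (m + m) = f m ^ 2) ∨
      (f m ^ 2 < n ∧ f (m + m) * f m ^ 2 = n ^ 2)) :
    ∀ m, m ≠ 0 → ∃ j : ℕ, f m ^ p = n ^ (2 * j) := by
  classical
  let u : ZMod p → Γ₀ˣ := fun m => if h : f m = 0 then 1 else Units.mk0 (f m) h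
  have hu : ∀ m, m ≠ 0 → (u m : Γ₀) = f m := by
    intro m hm
    have : f m ≠ 0 := (lt_of_le_of_lt zero_le (R1 m hm).1).ne'
    simp only [u, dif_neg this, Units.val_mk0]
  have hu2 : ∀ m, u (-m) = u m := by
    intro m
    simp only [u, R2]
  let N : Γ₀ˣ := Units.mk0 n hn
  have hN : (N : Γ₀) = n := rfl
  have := tropical hp5 (fun m => eAdd (u m)) (eAdd N) ?_ ?_ ?_ ?_ ?_ ?_
  · intro m hm
    obtain ⟨j, hj⟩ := this m hm
    refine ⟨j, ?_⟩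
    rw [eAdd_nsmul, eAdd_nsmul, eAdd_inj] at hj
    simpa [hu m hm, hN] using hj
  · intro m hm
    rw [← eAdd_one, eAdd_lt, eAdd_lt, hu m hm, hN]
    exact ⟨by simpa using (R1 m hm).2, (R1 m hm).1⟩
  · intro m
    simp only [hu2]
  · intro m k hm hk h1 h2
    simp only [ne_eq, eAdd_inj, hu m hm, hu k hk]
    exact R3 m k hm hk h1 h2
  · intro m k hm hk h1 h2 hlt
    simp only [eAdd_lt, hu m hm, hu k hk] at hlt
    simp only [eAdd_add, eAdd_inj, Units.val_mul, hu m hm, hu k hk, hu _ h1, hu _ h2]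
    exact R4 m k hm hk h1 h2 hlt
  · intro m k hm hk h1 h2 hlt
    simp only [eAdd_lt, hu m hm, hu k hk] at hlt
    simp only [eAdd_add, eAdd_nsmul, eAdd_inj, eAdd_lt, Units.val_mul, Units.val_pow_eq_pow_val,
      hu m hm, hu k hk, hu _ h1, hu _ h2, hN]
    exact R5 m k hm hk h1 h2 hlt
  · intro m hm
    by_cases hmm : m + m = 0
    · exfalso
      have h2m : (2 : ZMod p) * m = 0 := by rw [two_mul]; exact hmm
      rcases mul_eq_zero.mp h2m with h | h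
      · have : ((2 : ℕ) : ZMod p) = 0 := by exact_mod_cast h
        rw [ZMod.natCast_eq_zero_iff] at this
        have := Nat.le_of_dvd (by norm_num) this
        omega
      · exact hm h
    simp only [eAdd_add, eAdd_nsmul, eAdd_inj, eAdd_lt, Units.val_mul, Units.val_pow_eq_pow_val,
      hu m hm, hu _ hmm, hN]
    exact R6 m hm

end

end Fermat.Agent.S05
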